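-- WIP skeleton for S13 (never imported by final files).  Shows how `Fermat/Agent/S13.lean` is
-- obtained from the three remaining block outputs `dOut`, `l2Out`, `lpOut`
-- (`gOut`, S05 and S54 are already plugged in: see `S13/Assembly.lean`, `S13/AssemblyS05.lean`,
-- `S13/GOutProof.lean`, all landed and sorry-free).
import Fermat.Statements.S13
import Fermat.Agent.S13.AssemblyS05
import Fermat.Agent.S13.GOutProof

set_option autoImplicit false
open WeierstrassCurve WeierstrassCurve.Affine WeierstrassCurve.Affine.Point
open FreyPackage

namespace Fermat.Agent.S13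

/-- BLOCK (D) consumer layer (`Fermat/Agent/S13/DOut.lean`, helper22): `E[p](ℚ̄)` is nontrivial,
finite, of cardinality `≤ p²`.  From (D): for `P = (x,y)` nonsingular, `p` odd prime,
`p • P = 0 ↔ (W.ΨSq p).eval x = 0`, plus `natDegree_preΨ`. -/
theorem dOut (P : FreyPackage) : DOut P := by
  sorry

/-- BLOCK (L2) (local analysis at `2`; C2 team + V2a): for a Galois-stable line `N`:
* `N` is not pointwise fixed by `G_ℚ` (lead sketch STEP 3: a Frobenius lift at `2` acts on
  `N = V ∩ E0(A)` by `±2 ≠ 1`; or helper14's cheap argument `E(ℚ)[p] = 0`);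
* for every `A` over `2`, the inertia group of `A` acts trivially on `N` (= `V ∩ E0(A)`, injected
  into `kˣ` by the reduction character) and on `V/N` (component hom is inertia-invariant). -/
theorem l2Out (P : FreyPackage) (hD : DOut P) : L2Out P := by
  sorry

/-- BLOCK (Lp) (local analysis at `p`): for every `A` over `p`, `T := V ∩ E1(A)` is a submodule,
`T ≠ ⊤` as soon as a Galois-stable line exists (helper16 `Supersingular.lean` + (D) + V2a or the
rationality trick), and the inertia group of `A` acts trivially on `V/T`
(good case: S05 `Sep`; multiplicative case: component hom + `kˣ[p] = 1`). -/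
theorem lpOut (P : FreyPackage) (hD : DOut P) : LpOut P := by
  sorry

theorem result (P : FreyPackage) (hred : ¬ GaloisRepIsIrreducible (K := AlgebraicClosure ℚ) ℚ P.freyCurve P.p) : HasGaloisStableCofixedLine (K := AlgebraicClosure ℚ) ℚ P.freyCurve P.p :=
  s13_of_blocks P (dOut P) gOut (l2Out P (dOut P)) (lpOut P (dOut P)) hred

end Fermat.Agent.S13
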